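/-
Cluster E' (Mazur), S12 side, seat LEG (helper85): the arithmetic of the Legendre normal form.
* `leg_exists_scale`: two nonzero rationals are `u² d m`, `u² d n` with `m, n` coprime integers and
  `d` squarefree.
* `leg_dvd_cases`: `m, n` coprime, `32 ∣ m n (m + n)` ⟹ `32` divides one of `m`, `n`, `m + n`.
* `leg_exists_freyPair`: normalisation of the sign.
* `leg_thirtytwo_dvd`: the `2`-adic valuation computation.
-/
import Fermat.Agent.E.S12.Defs

set_option autoImplicit false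

namespace Fermat.Agent.ES12

/-- A positive rational is a square times a squarefree natural number. -/
theorem leg_exists_sq_mul_squarefree (g : ℚ) (hg : 0 < g) :
    ∃ (u : ℚ) (d : ℕ), u ≠ 0 ∧ Squarefree d ∧ g = u ^ 2 * d := by
  have hnum : 0 < g.num := Rat.num_pos.mpr hg
  have hden : 0 < g.den := g.den_pos
  obtain ⟨a, b, hab, ha⟩ := Nat.sq_mul_squarefree (g.num.natAbs * g.den)
  have hb : b ≠ 0 := by
    rintro rfl
    have : g.num.natAbs * g.den ≠ 0 :=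
      Nat.mul_ne_zero (Int.natAbs_ne_zero.mpr hnum.ne') hden.ne'
    apply this
    rw [← hab]; ring
  refine ⟨(b : ℚ) / g.den, a, ?_, ha, ?_⟩
  · exact div_ne_zero (by exact_mod_cast hb) (by exact_mod_cast hden.ne')
  · have hdenQ : (g.den : ℚ) ≠ 0 := by exact_mod_cast hden.ne'
    have h1 : ((b : ℚ)) ^ 2 * a = (g.num : ℚ) * g.den := by
      have h2 : ((b ^ 2 * a : ℕ) : ℚ) = ((g.num.natAbs * g.den : ℕ) : ℚ) := by rw [hab]
      have h4 : ((g.num.natAbs : ℕ) : ℚ) = (g.num : ℚ) := by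
        rw [Nat.cast_natAbs, abs_of_pos hnum]
      rw [Nat.cast_mul, Nat.cast_mul, Nat.cast_pow, h4] at h2
      exact h2
    have h3 : g * g.den = (g.num : ℚ) := Rat.mul_den_eq_num g
    rw [div_pow, div_mul_eq_mul_div, h1, ← h3]
    field_simp

/-- Two rationals, the first nonzero, are `g m`, `g n` with `g > 0` and `m, n` coprime
integers. -/
theorem leg_exists_coprime (M N : ℚ) (hM : M ≠ 0) :
    ∃ (g : ℚ) (m n : ℤ), 0 < g ∧ IsCoprime m n ∧ M = g * m ∧ N = g * n := by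
  set a : ℤ := M.num * N.den with ha
  set b : ℤ := N.num * M.den with hb
  have hMden : (M.den : ℚ) ≠ 0 := by exact_mod_cast M.den_pos.ne'
  have hNden : (N.den : ℚ) ≠ 0 := by exact_mod_cast N.den_pos.ne'
  have ha0 : a ≠ 0 := by
    rw [ha]
    exact mul_ne_zero (Rat.num_ne_zero.mpr hM) (by exact_mod_cast N.den_pos.ne')
  have hG : 0 < Int.gcd a b := Int.gcd_pos_of_ne_zero_left _ ha0
  have hGQ : ((Int.gcd a b : ℕ) : ℚ) ≠ 0 := by exact_mod_cast hG.ne'
  refine ⟨(Int.gcd a b : ℚ) / (M.den * N.den), a / Int.gcd a b, b / Int.gcd a b, ?_, ?_, ?_, ?_⟩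
  · apply div_pos
    · exact_mod_cast hG
    · apply mul_pos <;> exact_mod_cast Rat.den_pos _
  · rw [Int.isCoprime_iff_gcd_eq_one]
    exact Int.gcd_div_gcd_div_gcd hG
  · rw [Int.cast_div (Int.gcd_dvd_left a b) (by exact_mod_cast hG.ne')]
    have : (a : ℚ) = M * (M.den * N.den) := by
      rw [ha]; push_cast
      rw [← Rat.mul_den_eq_num M]
      ring
    rw [this]
    push_cast
    field_simp
  · rw [Int.cast_div (Int.gcd_dvd_right a b) (by exact_mod_cast hG.ne')]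
    have : (b : ℚ) = N * (M.den * N.den) := by
      rw [hb]; push_cast
      rw [← Rat.mul_den_eq_num N]
      ring
    rw [this]
    push_cast
    field_simp

/-- **Scaling.**  Two nonzero rationals are `u² d m`, `u² d n` with `u ≠ 0`, `d` a squarefree
integer and `m, n` coprime integers. -/
theorem leg_exists_scale (M N : ℚ) (hM : M ≠ 0) :
    ∃ (u : ℚ) (d m n : ℤ), u ≠ 0 ∧ Squarefree d ∧ IsCoprime m n ∧
      M = u ^ 2 * (d * m : ℤ) ∧ N = u ^ 2 * (d * n : ℤ) := by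
  obtain ⟨g, m, n, hg, hcop, hMg, hNg⟩ := leg_exists_coprime M N hM
  obtain ⟨u, d, hu, hd, hgu⟩ := leg_exists_sq_mul_squarefree g hg
  refine ⟨u, (d : ℤ), m, n, hu, ?_, hcop, ?_, ?_⟩
  · exact Int.squarefree_natCast.mpr hd
  · rw [hMg, hgu]; push_cast; ring
  · rw [hNg, hgu]; push_cast; ring

theorem leg_isCoprime_thirtytwo_of_odd {x : ℤ} (hx : Odd x) : IsCoprime (32 : ℤ) x := by
  obtain ⟨k, hk⟩ := hx
  have h2 : IsCoprime (2 : ℤ) x := ⟨-k, 1, by rw [hk]; ring⟩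
  have := h2.pow_left (m := 5)
  norm_num at this
  exact this

/-- For coprime `m, n`, if `32 ∣ m n (m + n)` then `32` divides one of `m`, `n`, `m + n`. -/
theorem leg_dvd_cases (m n : ℤ) (hcop : IsCoprime m n) (h : (32 : ℤ) ∣ m * n * (m + n)) :
    (32 : ℤ) ∣ m ∨ (32 : ℤ) ∣ n ∨ (32 : ℤ) ∣ m + n := by
  have hnot : ¬ (Even m ∧ Even n) := by
    rintro ⟨⟨a, ha⟩, ⟨b, hb⟩⟩
    obtain ⟨x, y, hxy⟩ := hcop
    have : (2 : ℤ) ∣ 1 := ⟨x * a + y * b, by rw [← hxy, ha, hb]; ring⟩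
    omega
  rcases Int.even_or_odd m with hm | hm
  · have hn : Odd n := by
      rcases Int.even_or_odd n with hn | hn
      · exact absurd ⟨hm, hn⟩ hnot
      · exact hn
    have hmn : Odd (m + n) := hm.add_odd hn
    left
    have h1 : (32 : ℤ) ∣ m * n := (leg_isCoprime_thirtytwo_of_odd hmn).dvd_of_dvd_mul_right h
    exact (leg_isCoprime_thirtytwo_of_odd hn).dvd_of_dvd_mul_right h1
  · rcases Int.even_or_odd n with hn | hn
    · have hmn : Odd (m + n) := hm.add_even hn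
      right; left
      have h1 : (32 : ℤ) ∣ m * n := (leg_isCoprime_thirtytwo_of_odd hmn).dvd_of_dvd_mul_right h
      exact (leg_isCoprime_thirtytwo_of_odd hm).dvd_of_dvd_mul_left h1
    · right; right
      have h1 : IsCoprime (32 : ℤ) (m * n) :=
        (leg_isCoprime_thirtytwo_of_odd hm).mul_right (leg_isCoprime_thirtytwo_of_odd hn)
      exact h1.dvd_of_dvd_mul_left h

/-- Sign normalisation: coprime `m, n` with `32 ∣ n`, `m n (m + n) ≠ 0`, and `d` squarefree: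
`(d m, d n) = (d' m', d' n')` with `(m', n')` a Frey pair and `d' = ± d`. -/
theorem leg_exists_freyPair (m n d : ℤ) (hcop : IsCoprime m n) (hm : m ≠ 0) (hn : n ≠ 0)
    (hmn : m + n ≠ 0) (h32 : (32 : ℤ) ∣ n) (hd : Squarefree d) :
    ∃ m' n' d' : ℤ, IsFreyPair m' n' ∧ Squarefree d' ∧ d' * m' = d * m ∧ d' * n' = d * n := by
  have hmodd : ¬ (2 : ℤ) ∣ m := by
    rintro ⟨a, ha⟩
    obtain ⟨b, hb⟩ := h32
    obtain ⟨x, y, hxy⟩ := hcop
    have : (2 : ℤ) ∣ 1 := ⟨x * a + y * (16 * b), by rw [← hxy, ha, hb]; ring⟩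
    omega
  by_cases h3 : m % 4 = 3
  · exact ⟨m, n, d, ⟨h3, h32, hcop, hm, hn, hmn⟩, hd, rfl, rfl⟩
  · refine ⟨-m, -n, -d, ⟨?_, ?_, ?_, ?_, ?_, ?_⟩, ?_, by ring, by ring⟩
    · omega
    · exact (dvd_neg).mpr h32
    · exact hcop.neg_neg
    · exact neg_ne_zero.mpr hm
    · exact neg_ne_zero.mpr hn
    · intro h; apply hmn; linarith
    · intro x hx
      exact hd x ((dvd_neg).mp hx)

/-- The `2`-adic valuation computation: if `c₄³ P² = 256 Q³ Δ` with `P, Q` integers and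
`3 v₂ (c₄) < v₂ (Δ)`, then `32 ∣ P`. -/
theorem leg_thirtytwo_dvd (P Q : ℤ) (c₄ Δ : ℚ) (hc₄ : c₄ ≠ 0) (hΔ : Δ ≠ 0) (hP : P ≠ 0)
    (hQ : Q ≠ 0) (h : c₄ ^ 3 * (P : ℚ) ^ 2 = 256 * (Q : ℚ) ^ 3 * Δ)
    (hj : 3 * padicValRat 2 c₄ < padicValRat 2 Δ) : (32 : ℤ) ∣ P := by
  have : Fact (Nat.Prime 2) := ⟨Nat.prime_two⟩
  have hPQ : (P : ℚ) ≠ 0 := by exact_mod_cast hP
  have hQQ : (Q : ℚ) ≠ 0 := by exact_mod_cast hQ
  have h256 : padicValRat 2 (256 : ℚ) = 8 := by
    have : (256 : ℚ) = ((2 : ℕ) : ℚ) ^ 8 := by norm_num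
    rw [this, padicValRat.pow, padicValRat.self (by norm_num)]
    norm_num
  have hv := congrArg (padicValRat 2) h
  rw [padicValRat.mul (pow_ne_zero _ hc₄) (pow_ne_zero _ hPQ),
    padicValRat.mul (mul_ne_zero (by norm_num) (pow_ne_zero _ hQQ)) hΔ,
    padicValRat.mul (by norm_num) (pow_ne_zero _ hQQ),
    padicValRat.pow, padicValRat.pow, padicValRat.pow, h256,
    padicValRat.of_int, padicValRat.of_int] at hv
  have hQ0 : (0 : ℤ) ≤ (padicValInt 2 Q : ℤ) := Int.natCast_nonneg _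
  have h5 : 5 ≤ padicValInt 2 P := by
    push_cast at hv
    omega
  have : ((2 : ℕ) : ℤ) ^ 5 ∣ P := (padicValInt_dvd_iff 5 P).mpr (Or.inr h5)
  norm_num at this
  exact this

end Fermat.Agent.ES12
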