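/-
Cluster E' (Mazur), S12 side, seat LEG (helper85): the Legendre-type curves
`legCurve M N : y² = x (x − M) (x + N)` and the variable changes between them.
-/
import Fermat.Agent.E.S12.Defs

set_option autoImplicit false

open WeierstrassCurve WeierstrassCurve.Affine

namespace Fermat.Agent.ES12

/-- The Legendre-type curve `y² = x (x − M) (x + N)`. -/
def legCurve {R : Type*} [CommRing R] (M N : R) : WeierstrassCurve R where
  a₁ := 0
  a₂ := N - M
  a₃ := 0
  a₄ := -(M * N)
  a₆ := 0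

section basic

variable {R : Type*} [CommRing R] (M N : R)

@[simp] theorem legCurve_a₁ : (legCurve M N).a₁ = 0 := rfl
@[simp] theorem legCurve_a₂ : (legCurve M N).a₂ = N - M := rfl
@[simp] theorem legCurve_a₃ : (legCurve M N).a₃ = 0 := rfl
@[simp] theorem legCurve_a₄ : (legCurve M N).a₄ = -(M * N) := rfl
@[simp] theorem legCurve_a₆ : (legCurve M N).a₆ = 0 := rfl

theorem legCurve_b₂ : (legCurve M N).b₂ = 4 * (N - M) := by
  simp only [WeierstrassCurve.b₂, legCurve]; ring

theorem legCurve_b₄ : (legCurve M N).b₄ = -2 * (M * N) := by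
  simp only [WeierstrassCurve.b₄, legCurve]; ring

theorem legCurve_b₆ : (legCurve M N).b₆ = 0 := by
  simp only [WeierstrassCurve.b₆, legCurve]; ring

theorem legCurve_c₄ : (legCurve M N).c₄ = 16 * (M ^ 2 + M * N + N ^ 2) := by
  simp only [WeierstrassCurve.c₄, WeierstrassCurve.b₂, WeierstrassCurve.b₄, legCurve]; ring

theorem legCurve_Δ : (legCurve M N).Δ = 16 * (M * N * (M + N)) ^ 2 := by
  simp only [WeierstrassCurve.Δ, WeierstrassCurve.b₂, WeierstrassCurve.b₄, WeierstrassCurve.b₆,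
    WeierstrassCurve.b₈, legCurve]
  ring

/-- Swapping the two nonzero roots: `{0, M, −N} = {0, −N, M}`. -/
theorem legCurve_swap : legCurve M N = legCurve (-N) (-M) := by
  ext <;> simp only [legCurve] <;> ring

theorem legCurve_map {S : Type*} [CommRing S] (f : R →+* S) :
    (legCurve M N).map f = legCurve (f M) (f N) := by
  ext <;> simp [legCurve]

end basic

/-- Translation by the root `M`: `{0, M, −N} − M = {−M, 0, −(M + N)}`. -/
theorem legCurve_shift (M N : ℚ) :
    (⟨1, M, 0, 0⟩ : VariableChange ℚ) • legCurve M N = legCurve (-M) (M + N) := by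
  ext
  · rw [variableChange_a₁]; simp [legCurve]
  · rw [variableChange_a₂]; simp [legCurve]; ring
  · rw [variableChange_a₃]; simp [legCurve]
  · rw [variableChange_a₄]; simp [legCurve]; ring
  · rw [variableChange_a₆]; simp [legCurve]; ring

/-- Scaling: `legCurve (u² M) (u² N) ≅ legCurve M N`. -/
theorem legCurve_scale (u : ℚˣ) (M N : ℚ) :
    (⟨u, 0, 0, 0⟩ : VariableChange ℚ) • legCurve ((u : ℚ) ^ 2 * M) ((u : ℚ) ^ 2 * N)
      = legCurve M N := by
  have hu : (u : ℚ) ≠ 0 := u.ne_zero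
  have hinv : ((u⁻¹ : ℚˣ) : ℚ) = (u : ℚ)⁻¹ := by simp
  ext
  · rw [variableChange_a₁]; simp [legCurve]
  · rw [variableChange_a₂]; simp only [legCurve, hinv]; field_simp; ring
  · rw [variableChange_a₃]; simp [legCurve]
  · rw [variableChange_a₄]; simp only [legCurve, hinv]; field_simp; ring
  · rw [variableChange_a₆]; simp [legCurve]

/-- **Completing the square and translating a root to `0`**: if the `2`-division cubic of `W` is
`4 (x − e₁) (x − e₂) (x − e₃)` then `W ≅ legCurve (e₂ − e₁) (e₁ − e₃)`. -/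
theorem legCurve_of_roots (W : WeierstrassCurve ℚ) (e₁ e₂ e₃ : ℚ)
    (h₂ : W.b₂ = -4 * (e₁ + e₂ + e₃))
    (h₄ : W.b₄ = 2 * (e₁ * e₂ + e₁ * e₃ + e₂ * e₃))
    (h₆ : W.b₆ = -4 * (e₁ * e₂ * e₃)) :
    (⟨1, e₁, -W.a₁ / 2, -(W.a₁ * e₁ + W.a₃) / 2⟩ : VariableChange ℚ) • W
      = legCurve (e₂ - e₁) (e₁ - e₃) := by
  simp only [WeierstrassCurve.b₂, WeierstrassCurve.b₄, WeierstrassCurve.b₆] at h₂ h₄ h₆
  ext
  · rw [variableChange_a₁]; simp [legCurve]; ring
  · rw [variableChange_a₂]; simp [legCurve]; linear_combination (1 / 4 : ℚ) * h₂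
  · rw [variableChange_a₃]; simp [legCurve]; ring
  · rw [variableChange_a₄]; simp [legCurve]
    linear_combination (1 / 2 : ℚ) * h₄ + (e₁ / 2) * h₂
  · rw [variableChange_a₆]; simp [legCurve]
    linear_combination (1 / 4 : ℚ) * h₆ + (e₁ / 2) * h₄ + (e₁ ^ 2 / 4) * h₂

/-- The variable change `X = 4 x`, `Y = 8 y + 4 x` from the Frey model to the Legendre model
(`u = 1/2`, `r = 0`, `s = -1/2`, `t = 0`). -/
def freyLegVC : VariableChange ℚ := ⟨Units.mk0 (1 / 2) (by norm_num), 0, -1 / 2, 0⟩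

theorem four_dvd_of_isFreyPair {A B : ℤ} (h : IsFreyPair A B) : (4 : ℤ) ∣ B - 1 - A := by
  have h1 := h.hA
  have h2 := h.hB
  omega

theorem sixteen_dvd_of_isFreyPair {A B : ℤ} (h : IsFreyPair A B) : (16 : ℤ) ∣ -(A * B) := by
  obtain ⟨k, hk⟩ := h.hB
  exact ⟨-(A * k * 2), by rw [hk]; ring⟩

/-- **(LEG-F)** the Frey model of a Frey pair is `ℚ`-isomorphic to `legCurve A B`. -/
theorem freyLegVC_smul (A B : ℤ) (h : IsFreyPair A B) :
    freyLegVC • (freyLike A B).map (Int.castRingHom ℚ) = legCurve (A : ℚ) (B : ℚ) := by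
  have h4 : (((B - 1 - A) / 4 : ℤ) : ℚ) = ((B : ℚ) - 1 - A) / 4 := by
    rw [Int.cast_div (four_dvd_of_isFreyPair h) (by norm_num)]
    push_cast; rfl
  have h16 : ((-(A * B) / 16 : ℤ) : ℚ) = -((A : ℚ) * B) / 16 := by
    rw [Int.cast_div (sixteen_dvd_of_isFreyPair h) (by norm_num)]
    push_cast; rfl
  have hu : ((freyLegVC.u⁻¹ : ℚˣ) : ℚ) = 2 := by
    simp [freyLegVC]
  ext
  · rw [variableChange_a₁, hu]
    simp only [freyLegVC, freyLike, legCurve, map_a₁, eq_intCast, Int.cast_one]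
    norm_num
  · rw [variableChange_a₂, hu]
    simp only [freyLegVC, freyLike, legCurve, map_a₁, map_a₂, eq_intCast, Int.cast_one]
    rw [h4]; ring
  · rw [variableChange_a₃, hu]
    simp only [freyLegVC, freyLike, legCurve, map_a₁, map_a₃, eq_intCast, Int.cast_one,
      Int.cast_zero]
    norm_num
  · rw [variableChange_a₄, hu]
    simp only [freyLegVC, freyLike, legCurve, map_a₁, map_a₂, map_a₃, map_a₄, eq_intCast,
      Int.cast_one, Int.cast_zero]
    rw [h4, h16]; ring
  · rw [variableChange_a₆, hu]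
    simp only [freyLegVC, freyLike, legCurve, map_a₁, map_a₂, map_a₃, map_a₄, map_a₆,
      eq_intCast, Int.cast_one, Int.cast_zero]
    ring

/-- **(LEG-F')** consequence: a curve isomorphic to `legCurve m n` is isomorphic to the Frey
model. -/
theorem freyLike_of_leg (W : WeierstrassCurve ℚ) (m n : ℤ) (h : IsFreyPair m n)
    (C : VariableChange ℚ) (hC : C • W = legCurve (m : ℚ) (n : ℚ)) :
    (freyLegVC⁻¹ * C) • W = (freyLike m n).map (Int.castRingHom ℚ) := by
  rw [mul_smul, hC, ← freyLegVC_smul m n h, inv_smul_smul]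

end Fermat.Agent.ES12
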