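/-
Cluster E' (Mazur), S12 side, seat LEG (helper85): the Legendre normal form, root form.
-/
import Fermat.Agent.E.S12.Leg.Arith
import Fermat.Agent.E.S12.Leg.Curve

set_option autoImplicit false

open WeierstrassCurve WeierstrassCurve.Affine

namespace Fermat.Agent.ES12

/-- Normalisation step: `legCurve (d m) (d n)` with `m, n` coprime, `m n (m + n) ≠ 0`,
`32 ∣ m n (m + n)` is `ℚ`-isomorphic to `legCurve (d' m') (d' n')` with `(m', n')` a Frey pair. -/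
theorem leg_normalise (m n d : ℤ) (hcop : IsCoprime m n) (hm : m ≠ 0) (hn : n ≠ 0)
    (hmn : m + n ≠ 0) (h32 : (32 : ℤ) ∣ m * n * (m + n)) (hd : Squarefree d) :
    ∃ m' n' d' : ℤ, IsFreyPair m' n' ∧ Squarefree d' ∧
      ∃ C : VariableChange ℚ, C • legCurve ((d * m : ℤ) : ℚ) ((d * n : ℤ) : ℚ)
        = legCurve ((d' * m' : ℤ) : ℚ) ((d' * n' : ℤ) : ℚ) := by
  rcases leg_dvd_cases m n hcop h32 with h | h | h
  · -- `32 ∣ m`: swap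
    obtain ⟨m', n', d', hF, hd', h1, h2⟩ :=
      leg_exists_freyPair (-n) (-m) d hcop.symm.neg_neg (neg_ne_zero.mpr hn) (neg_ne_zero.mpr hm)
        (by intro h0; apply hmn; linarith) ((dvd_neg).mpr h) hd
    refine ⟨m', n', d', hF, hd', 1, ?_⟩
    rw [one_smul, h1, h2, legCurve_swap]
    congr 1 <;> push_cast <;> ring
  · -- `32 ∣ n`
    obtain ⟨m', n', d', hF, hd', h1, h2⟩ := leg_exists_freyPair m n d hcop hm hn hmn h hd
    exact ⟨m', n', d', hF, hd', 1, by rw [one_smul, h1, h2]⟩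
  · -- `32 ∣ m + n`: shift by the root `d m`
    have hcop' : IsCoprime (-m) (m + n) := by
      have : IsCoprime m (m + n) := by
        have := hcop.add_mul_left_right 1
        simpa [add_comm] using this
      exact this.neg_left
    obtain ⟨m', n', d', hF, hd', h1, h2⟩ :=
      leg_exists_freyPair (-m) (m + n) d hcop' (neg_ne_zero.mpr hm) hmn
        (by intro h0; apply hn; linarith) h hd
    refine ⟨m', n', d', hF, hd', ⟨1, ((d * m : ℤ) : ℚ), 0, 0⟩, ?_⟩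
    rw [legCurve_shift, h1, h2]
    congr 1 <;> push_cast <;> ring

/-- **(LEG), root form.**  `W` over `ℚ` elliptic, `v₂ (j) < 0` (stated as
`3 v₂ (c₄) < v₂ (Δ)`, `c₄ ≠ 0`), and the `2`-division cubic `4 x³ + b₂ x² + 2 b₄ x + b₆` splits
over `ℚ` as `4 (x − e₁) (x − e₂) (x − e₃)`.  Then `W ≅_ℚ legCurve (d m) (d n)` with `(m, n)` a Frey
pair and `d` squarefree. -/
theorem leg_normal_form_aux (W : WeierstrassCurve ℚ) (hΔ : W.Δ ≠ 0) (hc₄ : W.c₄ ≠ 0)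
    (hj : 3 * padicValRat 2 W.c₄ < padicValRat 2 W.Δ)
    (e₁ e₂ e₃ : ℚ)
    (h₂ : W.b₂ = -4 * (e₁ + e₂ + e₃))
    (h₄ : W.b₄ = 2 * (e₁ * e₂ + e₁ * e₃ + e₂ * e₃))
    (h₆ : W.b₆ = -4 * (e₁ * e₂ * e₃)) :
    ∃ m n d : ℤ, IsFreyPair m n ∧ Squarefree d ∧
      ∃ C : VariableChange ℚ, C • W = legCurve ((d * m : ℤ) : ℚ) ((d * n : ℤ) : ℚ) := by
  -- step 1: Legendre form with rational parameters
  set C₁ : VariableChange ℚ := ⟨1, e₁, -W.a₁ / 2, -(W.a₁ * e₁ + W.a₃) / 2⟩ with hC₁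
  have h1 : C₁ • W = legCurve (e₂ - e₁) (e₁ - e₃) := legCurve_of_roots W e₁ e₂ e₃ h₂ h₄ h₆
  have hΔ1 : (legCurve (e₂ - e₁) (e₁ - e₃)).Δ ≠ 0 := by
    rw [← h1, variableChange_Δ]
    exact mul_ne_zero (pow_ne_zero _ (Units.ne_zero _)) hΔ
  rw [legCurve_Δ] at hΔ1
  have hM : e₂ - e₁ ≠ 0 := by
    intro h0; apply hΔ1; rw [h0]; ring
  -- step 2: scaling
  obtain ⟨u, d, m, n, hu, hd, hcop, hMu, hNu⟩ := leg_exists_scale (e₂ - e₁) (e₁ - e₃) hM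
  set C₂ : VariableChange ℚ := ⟨Units.mk0 u hu, 0, 0, 0⟩ with hC₂
  have h2 : C₂ • legCurve (e₂ - e₁) (e₁ - e₃)
      = legCurve ((d * m : ℤ) : ℚ) ((d * n : ℤ) : ℚ) := by
    rw [hMu, hNu]
    exact legCurve_scale (Units.mk0 u hu) _ _
  have h12 : (C₂ * C₁) • W = legCurve ((d * m : ℤ) : ℚ) ((d * n : ℤ) : ℚ) := by
    rw [mul_smul, h1, h2]
  -- nonvanishing
  have hd0 : d ≠ 0 := hd.ne_zero
  have hΔ2 : (legCurve ((d * m : ℤ) : ℚ) ((d * n : ℤ) : ℚ)).Δ ≠ 0 := by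
    rw [← h12, variableChange_Δ]
    exact mul_ne_zero (pow_ne_zero _ (Units.ne_zero _)) hΔ
  have hc₄2 : (legCurve ((d * m : ℤ) : ℚ) ((d * n : ℤ) : ℚ)).c₄ ≠ 0 := by
    rw [← h12, variableChange_c₄]
    exact mul_ne_zero (pow_ne_zero _ (Units.ne_zero _)) hc₄
  have hm : m ≠ 0 := by
    rintro rfl; apply hΔ2; rw [legCurve_Δ]; push_cast; ring
  have hn : n ≠ 0 := by
    rintro rfl; apply hΔ2; rw [legCurve_Δ]; push_cast; ring
  have hmn : m + n ≠ 0 := by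
    intro h0; apply hΔ2; rw [legCurve_Δ]
    have : ((d * m : ℤ) : ℚ) + ((d * n : ℤ) : ℚ) = 0 := by
      have : (d * m + d * n : ℤ) = 0 := by rw [← mul_add, h0, mul_zero]
      exact_mod_cast this
    rw [this]; ring
  have hQ : m ^ 2 + m * n + n ^ 2 ≠ 0 := by
    intro h0; apply hc₄2; rw [legCurve_c₄]
    have : ((d * m : ℤ) : ℚ) ^ 2 + ((d * m : ℤ) : ℚ) * ((d * n : ℤ) : ℚ) + ((d * n : ℤ) : ℚ) ^ 2
        = ((d ^ 2 * (m ^ 2 + m * n + n ^ 2) : ℤ) : ℚ) := by push_cast; ring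
    rw [this, h0]; simp
  have hP : m * n * (m + n) ≠ 0 := mul_ne_zero (mul_ne_zero hm hn) hmn
  -- step 3: valuations
  have hv : (((C₂ * C₁).u⁻¹ : ℚˣ) : ℚ) ≠ 0 := Units.ne_zero _
  set v : ℚ := (((C₂ * C₁).u⁻¹ : ℚˣ) : ℚ) with hvdef
  have hc : v ^ 4 * W.c₄ = 16 * (d : ℚ) ^ 2 * ((m ^ 2 + m * n + n ^ 2 : ℤ) : ℚ) := by
    have := variableChange_c₄ W (C₂ * C₁)
    rw [h12, legCurve_c₄] at this
    rw [← hvdef] at this
    rw [← this]; push_cast; ring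
  have hD : v ^ 12 * W.Δ = 16 * (d : ℚ) ^ 6 * ((m * n * (m + n) : ℤ) : ℚ) ^ 2 := by
    have := variableChange_Δ W (C₂ * C₁)
    rw [h12, legCurve_Δ] at this
    rw [← hvdef] at this
    rw [← this]; push_cast; ring
  have hdQ : (d : ℚ) ≠ 0 := by exact_mod_cast hd0
  have key : W.c₄ ^ 3 * ((m * n * (m + n) : ℤ) : ℚ) ^ 2
      = 256 * ((m ^ 2 + m * n + n ^ 2 : ℤ) : ℚ) ^ 3 * W.Δ := by
    have hne : v ^ 12 * (d : ℚ) ^ 6 ≠ 0 := mul_ne_zero (pow_ne_zero _ hv) (pow_ne_zero _ hdQ)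
    apply mul_left_cancel₀ hne
    linear_combination
      ((d : ℚ) ^ 6 * ((m * n * (m + n) : ℤ) : ℚ) ^ 2 *
        ((v ^ 4 * W.c₄) ^ 2 + (v ^ 4 * W.c₄) * (16 * (d : ℚ) ^ 2 * ((m ^ 2 + m * n + n ^ 2 : ℤ) : ℚ))
          + (16 * (d : ℚ) ^ 2 * ((m ^ 2 + m * n + n ^ 2 : ℤ) : ℚ)) ^ 2)) * hc
      - (256 * ((m ^ 2 + m * n + n ^ 2 : ℤ) : ℚ) ^ 3 * (d : ℚ) ^ 6) * hD
  have h32 : (32 : ℤ) ∣ m * n * (m + n) :=
    leg_thirtytwo_dvd (m * n * (m + n)) (m ^ 2 + m * n + n ^ 2) W.c₄ W.Δ hc₄ hΔ hP hQ key hj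
  -- step 4: normalisation
  obtain ⟨m', n', d', hF, hd', C₃, h3⟩ := leg_normalise m n d hcop hm hn hmn h32 hd
  exact ⟨m', n', d', hF, hd', C₃ * (C₂ * C₁), by rw [mul_smul, h12, h3]⟩

end Fermat.Agent.ES12
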