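/-
Cluster E' (Mazur), S12 side, seat LEG (helper85): if all `2`-torsion points of `W (Q̄)` are
Galois-fixed, the `2`-division cubic `4 x³ + b₂ x² + 2 b₄ x + b₆` splits over `ℚ`.
-/
import Fermat.Agent.E.S12.Defs

set_option autoImplicit false

open WeierstrassCurve WeierstrassCurve.Affine Polynomial

namespace Fermat.Agent.ES12

/-- An element of `Q̄` fixed by `G_ℚ` is rational. -/
theorem leg_exists_rat_of_fixed (x : Qb) (hx : ∀ σ : GQ, σ x = x) :
    ∃ r : ℚ, algebraMap ℚ Qb r = x := by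
  have h1 : Algebra.IsAlgebraic ℚ (AlgebraicClosure ℚ) := AlgebraicClosure.isAlgebraic ℚ
  have h2 : IsAlgClosure ℚ (AlgebraicClosure ℚ) := ⟨inferInstance, h1⟩
  have h3 : IsGalois ℚ (AlgebraicClosure ℚ) := IsAlgClosure.isGalois ℚ (AlgebraicClosure ℚ)
  exact (InfiniteGalois.mem_range_algebraMap_iff_fixed (k := ℚ) (K := AlgebraicClosure ℚ) x).mpr hx

/-- The `2`-division cubic. -/
noncomputable def legCubic (W : WeierstrassCurve ℚ) : ℚ[X] :=
  C 4 * X ^ 3 + C W.b₂ * X ^ 2 + C (2 * W.b₄) * X + C W.b₆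

theorem legCubic_natDegree (W : WeierstrassCurve ℚ) : (legCubic W).natDegree = 3 := by
  unfold legCubic
  compute_degree!

theorem legCubic_leadingCoeff (W : WeierstrassCurve ℚ) : (legCubic W).leadingCoeff = 4 := by
  rw [leadingCoeff, legCubic_natDegree]
  unfold legCubic
  simp

/-- A root of the `2`-division cubic over `Q̄` is the `x`-coordinate of a `2`-torsion point, so
it is rational if the `2`-torsion is Galois-fixed. -/
theorem leg_root_rational (W : WeierstrassCurve ℚ) (hΔ : W.Δ ≠ 0)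
    (h2 : ∀ P : (W⁄Qb).Point, 2 • P = 0 → ∀ σ : GQ, σ • P = P)
    (ε : Qb) (hε : ((legCubic W).map (algebraMap ℚ Qb)).IsRoot ε) :
    ∃ e : ℚ, algebraMap ℚ Qb e = ε := by
  apply leg_exists_rat_of_fixed
  intro σ
  have hroot : 4 * ε ^ 3 + algebraMap ℚ Qb W.b₂ * ε ^ 2 + 2 * algebraMap ℚ Qb W.b₄ * ε
      + algebraMap ℚ Qb W.b₆ = 0 := by
    have := hε
    simp only [legCubic, IsRoot.def, Polynomial.map_add, Polynomial.map_mul, Polynomial.map_pow,
      map_C, map_X, eval_add, eval_mul, eval_pow, eval_C, eval_X, _root_.map_mul] at this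
    rw [map_ofNat, map_ofNat] at this
    linear_combination this
  set y₀ : Qb := -(algebraMap ℚ Qb W.a₁ * ε + algebraMap ℚ Qb W.a₃) / 2 with hy₀
  have heq : (W⁄Qb).toAffine.Equation ε y₀ := by
    rw [Affine.equation_iff]
    simp only [WeierstrassCurve.baseChange, map_a₁, map_a₂, map_a₃, map_a₄, map_a₆]
    simp only [WeierstrassCurve.b₂, WeierstrassCurve.b₄, WeierstrassCurve.b₆, map_add, map_mul,
      map_pow, map_ofNat] at hroot
    rw [hy₀]
    linear_combination (-1 / 4 : Qb) * hroot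
  have hΔ' : (W⁄Qb).Δ ≠ 0 := by
    simp only [WeierstrassCurve.baseChange, map_Δ]
    exact (_root_.map_ne_zero _).mpr hΔ
  have hns : (W⁄Qb).toAffine.Nonsingular ε y₀ :=
    (Affine.equation_iff_nonsingular_of_Δ_ne_zero hΔ').mp heq
  have htors : 2 • (Point.some ε y₀ hns : (W⁄Qb).Point) = 0 := by
    rw [two_nsmul]
    apply Point.add_self_of_Y_eq
    simp only [Affine.negY, WeierstrassCurve.baseChange, map_a₁, map_a₃]
    rw [hy₀]; ring
  have hfix := h2 _ htors σ
  rw [Point.algEquiv_smul_def] at hfix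
  simp only [Point.map_some] at hfix
  have := (Point.some.injEq _ _ _ _ _ _).mp hfix
  exact this.1

/-- **Rational `2`-torsion ⟹ the `2`-division cubic splits over `ℚ`.** -/
theorem leg_roots_of_two_torsion_fixed (W : WeierstrassCurve ℚ) (hΔ : W.Δ ≠ 0)
    (h2 : ∀ P : (W⁄Qb).Point, 2 • P = 0 → ∀ σ : GQ, σ • P = P) :
    ∃ e₁ e₂ e₃ : ℚ, W.b₂ = -4 * (e₁ + e₂ + e₃) ∧
      W.b₄ = 2 * (e₁ * e₂ + e₁ * e₃ + e₂ * e₃) ∧ W.b₆ = -4 * (e₁ * e₂ * e₃) := by
  set g : Qb[X] := (legCubic W).map (algebraMap ℚ Qb) with hg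
  have hdeg : g.natDegree = 3 := by
    rw [hg, natDegree_map, legCubic_natDegree]
  have hlc : g.leadingCoeff = 4 := by
    rw [hg, leadingCoeff_map, legCubic_leadingCoeff]; simp
  have hsplit : g.Splits := IsAlgClosed.splits g
  have hcard : g.roots.card = 3 := by
    rw [← hdeg]; exact (splits_iff_card_roots.mp hsplit)
  obtain ⟨ε₁, ε₂, ε₃, hroots⟩ := Multiset.card_eq_three.mp hcard
  have hprod := C_leadingCoeff_mul_prod_multiset_X_sub_C (hcard.trans hdeg.symm)
  rw [hroots, hlc] at hprod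
  have hmem : ∀ ε ∈ g.roots, ∃ e : ℚ, algebraMap ℚ Qb e = ε := by
    intro ε hε
    exact leg_root_rational W hΔ h2 ε (isRoot_of_mem_roots hε)
  obtain ⟨e₁, he₁⟩ := hmem ε₁ (by rw [hroots]; simp)
  obtain ⟨e₂, he₂⟩ := hmem ε₂ (by rw [hroots]; simp)
  obtain ⟨e₃, he₃⟩ := hmem ε₃ (by rw [hroots]; simp)
  have hpoly : legCubic W = C 4 * ((X - C e₁) * ((X - C e₂) * (X - C e₃))) := by
    apply Polynomial.map_injective (algebraMap ℚ Qb) (algebraMap ℚ Qb).injective
    rw [← hg, ← hprod]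
    simp [he₁, he₂, he₃]
  have h0 := congrArg (eval 0) hpoly
  have h1 := congrArg (eval 1) hpoly
  have hm1 := congrArg (eval (-1)) hpoly
  simp only [legCubic, eval_add, eval_mul, eval_pow, eval_C, eval_X, eval_sub] at h0 h1 hm1
  refine ⟨e₁, e₂, e₃, ?_, ?_, ?_⟩
  · linear_combination (1 / 2 : ℚ) * h1 + (1 / 2 : ℚ) * hm1 - h0
  · linear_combination (1 / 4 : ℚ) * h1 - (1 / 4 : ℚ) * hm1
  · linear_combination h0

end Fermat.Agent.ES12
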