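/-
Cluster E' (Mazur), S12 side, seat LEG (helper85): rational `2`-torsion.
* `leg_two_torsion_fixed_of_roots`: if the `2`-division cubic of `W / ℚ` splits over `ℚ`, all
  `2`-torsion points of `W (Q̄)` are Galois-fixed.
* `freyLike_two_torsion_fixed`: the case of the Frey model of a Frey pair
  (roots `0`, `A / 4`, `− B / 4`).
* `leg_two_torsion_fixed_of_hom`: transfer along a surjective Galois-equivariant homomorphism
  whose kernel is killed by an odd number (e.g. the Vélu quotient by a subgroup of odd order).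
-/
import Fermat.Agent.E.S12.Leg.Curve

set_option autoImplicit false

open WeierstrassCurve WeierstrassCurve.Affine

namespace Fermat.Agent.ES12

/-- If the `2`-division cubic of `W` is `4 (x − e₁) (x − e₂) (x − e₃)` over `ℚ`, every
`2`-torsion point of `W (Q̄)` is fixed by `G_ℚ`. -/
theorem leg_two_torsion_fixed_of_roots (W : WeierstrassCurve ℚ) (e₁ e₂ e₃ : ℚ)
    (h₂ : W.b₂ = -4 * (e₁ + e₂ + e₃))
    (h₄ : W.b₄ = 2 * (e₁ * e₂ + e₁ * e₃ + e₂ * e₃))
    (h₆ : W.b₆ = -4 * (e₁ * e₂ * e₃)) :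
    ∀ P : (W⁄Qb).Point, 2 • P = 0 → ∀ σ : GQ, σ • P = P := by
  intro P hP σ
  rcases P with _ | ⟨x, y, h⟩
  · rfl
  · -- `y = negY x y`
    rw [two_nsmul, add_eq_zero_iff_eq_neg, Point.neg_some] at hP
    have hy : y = (W⁄Qb).toAffine.negY x y := ((Point.some.injEq _ _ _ _ _ _).mp hP).2
    have heq := h.1
    rw [Affine.equation_iff] at heq
    simp only [Affine.negY, WeierstrassCurve.baseChange, map_a₁, map_a₃] at hy
    simp only [WeierstrassCurve.baseChange, map_a₁, map_a₂, map_a₃, map_a₄, map_a₆] at heq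
    simp only [WeierstrassCurve.b₂, WeierstrassCurve.b₄, WeierstrassCurve.b₆] at h₂ h₄ h₆
    have h₂' := congrArg (algebraMap ℚ Qb) h₂
    have h₄' := congrArg (algebraMap ℚ Qb) h₄
    have h₆' := congrArg (algebraMap ℚ Qb) h₆
    simp only [map_add, map_mul, map_pow, map_neg, map_ofNat] at h₂' h₄' h₆'
    set ε₁ := algebraMap ℚ Qb e₁ with hε₁
    set ε₂ := algebraMap ℚ Qb e₂ with hε₂
    set ε₃ := algebraMap ℚ Qb e₃ with hε₃
    set α₁ := algebraMap ℚ Qb W.a₁ with hα₁
    set α₃ := algebraMap ℚ Qb W.a₃ with hα₃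
    have hy2 : 2 * y = -(α₁ * x + α₃) := by linear_combination hy
    have hprod : (x - ε₁) * ((x - ε₂) * (x - ε₃)) = 0 := by
      have h4 : (4 : Qb) ≠ 0 := by norm_num
      apply mul_left_cancel₀ h4
      rw [mul_zero]
      linear_combination (-4) * heq + (2 * y + α₁ * x + α₃) * hy2
        - (x ^ 2) * h₂' - (2 * x) * h₄' - h₆'
    have hx : ∃ e : ℚ, algebraMap ℚ Qb e = x := by
      rcases mul_eq_zero.mp hprod with h1 | h1
      · exact ⟨e₁, (sub_eq_zero.mp h1).symm⟩
      · rcases mul_eq_zero.mp h1 with h1 | h1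
        · exact ⟨e₂, (sub_eq_zero.mp h1).symm⟩
        · exact ⟨e₃, (sub_eq_zero.mp h1).symm⟩
    obtain ⟨e, he⟩ := hx
    have hyr : algebraMap ℚ Qb (-(W.a₁ * e + W.a₃) / 2) = y := by
      simp only [map_div₀, map_neg, map_add, map_mul, map_ofNat]
      rw [he, ← hα₁, ← hα₃]
      have h2 : (2 : Qb) ≠ 0 := by norm_num
      field_simp
      linear_combination -hy2
    have hσx : σ x = x := by rw [← he]; exact σ.commutes e
    have hσy : σ y = y := by rw [← hyr]; exact σ.commutes _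
    rw [Point.algEquiv_smul_def, Point.map_some]
    simp only [AlgEquiv.toAlgHom_apply]
    congr 1

/-- The `2`-torsion of the Frey model of a Frey pair is rational. -/
theorem freyLike_two_torsion_fixed (A B : ℤ) (h : IsFreyPair A B) :
    ∀ P : Pts (freyLike A B), 2 • P = 0 → ∀ σ : GQ, σ • P = P := by
  have h4 : (((B - 1 - A) / 4 : ℤ) : ℚ) = ((B : ℚ) - 1 - A) / 4 := by
    rw [Int.cast_div (four_dvd_of_isFreyPair h) (by norm_num)]
    push_cast; rfl
  have h16 : ((-(A * B) / 16 : ℤ) : ℚ) = -((A : ℚ) * B) / 16 := by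
    rw [Int.cast_div (sixteen_dvd_of_isFreyPair h) (by norm_num)]
    push_cast; rfl
  apply leg_two_torsion_fixed_of_roots ((freyLike A B).map (Int.castRingHom ℚ)) 0 ((A : ℚ) / 4)
    (-(B : ℚ) / 4)
  · simp only [WeierstrassCurve.b₂, freyLike, map_a₁, map_a₂, eq_intCast, Int.cast_one]
    rw [h4]; ring
  · simp only [WeierstrassCurve.b₄, freyLike, map_a₁, map_a₃, map_a₄, eq_intCast, Int.cast_one,
      Int.cast_zero]
    rw [h16]; ring
  · simp only [WeierstrassCurve.b₆, freyLike, map_a₃, map_a₆, eq_intCast, Int.cast_zero]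
    ring

/-- Transfer of rational `2`-torsion along a surjective Galois-equivariant homomorphism whose
kernel is killed by an odd number `p`. -/
theorem leg_two_torsion_fixed_of_hom {W₁ W₂ : WeierstrassCurve ℚ}
    (φ : (W₁⁄Qb).Point →+ (W₂⁄Qb).Point) (hsurj : Function.Surjective φ)
    (hφ : ∀ (σ : GQ) (P : (W₁⁄Qb).Point), φ (σ • P) = σ • φ P)
    (p : ℕ) (hp : Odd p) (hker : ∀ P : (W₁⁄Qb).Point, φ P = 0 → p • P = 0)
    (h : ∀ P : (W₁⁄Qb).Point, 2 • P = 0 → ∀ σ : GQ, σ • P = P) :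
    ∀ Q : (W₂⁄Qb).Point, 2 • Q = 0 → ∀ σ : GQ, σ • Q = Q := by
  intro Q hQ σ
  obtain ⟨P, rfl⟩ := hsurj Q
  obtain ⟨k, hk⟩ := hp
  have h1 : φ (2 • P) = 0 := by rw [map_nsmul, hQ]
  have h2 : 2 • (p • P) = 0 := by
    rw [smul_comm]; exact hker _ h1
  have h3 : φ (p • P) = φ P := by
    rw [map_nsmul, hk, add_smul, mul_smul, one_smul, smul_comm, hQ, nsmul_zero, zero_add]
  rw [← h3, ← hφ, h _ h2 σ]

end Fermat.Agent.ES12
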